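/-
P-DS / DS-2-int (row 487, helper65): all coefficients `a_n`, `(n, N) = 1`, of a form as in S48
are algebraic integers, given the integrality of the `a_p`, `p ∤ N`.
-/
import Fermat.Agent.H98.DS.DepletionInterfaces

set_option autoImplicit false

noncomputable section

open CongruenceSubgroup ModularFormClass
open scoped MatrixGroups

namespace Fermat.Agent.H65

/-- The constant coefficient of a cusp form on `Γ₁(N)` vanishes. -/
theorem dsint_qCoeff_zero (N : ℕ) (k : ℤ) (f : CuspForm (Gamma1 N) k) :
    qCoeff f 0 = 0 := by
  have h1 : (1 : ℝ) ∈ ((Gamma1 N : Subgroup SL(2, ℤ)) : Subgroup (GL (Fin 2) ℝ)).strictPeriods := by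
    rw [CongruenceSubgroup.strictPeriods_Gamma1]
    exact AddSubgroup.mem_zmultiples 1
  exact CuspFormClass.qExpansion_coeff_zero f one_pos h1

/-- The values of a Dirichlet character are algebraic integers. -/
theorem dsint_isIntegral_dirichlet {N : ℕ} [NeZero N] (ε : DirichletCharacter ℂ N) (x : ZMod N) :
    IsIntegral ℤ (ε x) := by
  by_cases hx : IsUnit x
  · obtain ⟨u, rfl⟩ := hx
    have hcard : 0 < Fintype.card (ZMod N)ˣ := Fintype.card_pos
    refine IsIntegral.of_pow hcard ?_
    rw [← map_pow, ← Units.val_pow_eq_pow_val, pow_card_eq_one, Units.val_one, map_one]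
    exact isIntegral_one
  · rw [MulChar.map_nonunit ε hx]
    exact isIntegral_zero

/-- **DS-2-int.** -/
theorem coprimeIntegral (hI : Fermat.Agent.H20.DS.IntegralStatement) :
    Fermat.Agent.H98.DS.CoprimeIntegralStatement := by
  intro N _ ε f hf n
  induction n using Nat.strong_induction_on with
  | _ n ih =>
    intro hn
    rcases Nat.lt_or_ge n 2 with h2 | h2
    · interval_cases n
      · rw [dsint_qCoeff_zero]
        exact isIntegral_zero
      · rw [hf.one]
        exact isIntegral_one
    · have hn1 : n ≠ 1 := by omega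
      have hp : (n.minFac).Prime := Nat.minFac_prime hn1
      obtain ⟨m, hm⟩ := Nat.minFac_dvd n
      set p := n.minFac with hpdef
      have hpN : ¬ p ∣ N := by
        intro h
        have h1 : p ∣ Nat.gcd n N := Nat.dvd_gcd (Nat.minFac_dvd n) h
        rw [Nat.Coprime] at hn
        rw [hn] at h1
        exact hp.one_lt.ne' (Nat.dvd_one.mp h1)
      have hm0 : m ≠ 0 := by
        rintro rfl
        rw [mul_zero] at hm
        omega
      have hmlt : m < n := by
        rw [hm]
        exact lt_mul_of_one_lt_left (Nat.pos_of_ne_zero hm0) hp.one_lt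
      have hmcop : m.Coprime N := Nat.Coprime.coprime_dvd_left ⟨p, by rw [hm, mul_comm]⟩ hn
      have hrel := hf.hecke p hp hpN m
      have hkey : qCoeff f n = qCoeff f p * qCoeff f m -
          ε (p : ZMod N) * (if p ∣ m then qCoeff f (m / p) else 0) := by
        rw [hm]
        exact eq_sub_of_add_eq hrel
      rw [hkey]
      refine IsIntegral.sub (IsIntegral.mul (hI N ε f hf p hp hpN) (ih m hmlt hmcop))
        (IsIntegral.mul (dsint_isIntegral_dirichlet ε _) ?_)
      split_ifs with hpm
      · have hlt : m / p < n := lt_of_le_of_lt (Nat.div_le_self m p) hmlt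
        have hcop : (m / p).Coprime N :=
          Nat.Coprime.coprime_dvd_left (Nat.div_dvd_of_dvd hpm) hmcop
        exact ih (m / p) hlt hcop
      · exact isIntegral_zero

end Fermat.Agent.H65

end
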