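/-
P-DS / DS-2B (row 415, helper65): modular transformation of the Weierstrass zeta function and of
Hecke's weight-one Eisenstein functions.

* `zetaHomogeneity : ZetaHomogeneityStatement` (unconditional: termwise identity + reindexing);
* `eisOneTransform : ZetaQuasiPeriodStatement → EisOneTransformStatement`.
-/
import Fermat.Agent.H6.DS.Interfaces

set_option autoImplicit false

noncomputable section

open UpperHalfPlane Matrix
open scoped MatrixGroups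

namespace Fermat.Agent.H65

open Fermat.Agent.H6.DS

/-! ### The lattice points -/

theorem ds_latPt_add (z : ℂ) (v w : Fin 2 → ℤ) : latPt z (v + w) = latPt z v + latPt z w := by
  simp only [latPt, Pi.add_apply, Int.cast_add]
  ring

theorem ds_latPt_neg (z : ℂ) (v : Fin 2 → ℤ) : latPt z (-v) = -latPt z v := by
  simp only [latPt, Pi.neg_apply, Int.cast_neg]
  ring

theorem ds_latPt_smul (z : ℂ) (n : ℤ) (v : Fin 2 → ℤ) : latPt z (n • v) = n * latPt z v := by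
  simp only [latPt, Pi.smul_apply, smul_eq_mul, Int.cast_mul]
  ring

theorem ds_latPt_zero (z : ℂ) : latPt z 0 = 0 := by
  simp [latPt]

/-- `1` and `z` are linearly independent over `ℤ` when `z` is not real. -/
theorem ds_latPt_eq_zero {z : ℂ} (hz : 0 < z.im) {v : Fin 2 → ℤ} (h : latPt z v = 0) :
    v = 0 := by
  have him := congrArg Complex.im h
  have hre := congrArg Complex.re h
  simp only [latPt, Complex.add_im, Complex.mul_im, Complex.intCast_re, Complex.intCast_im,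
    zero_mul, add_zero, Complex.zero_im, Complex.add_re, Complex.mul_re, sub_zero,
    Complex.zero_re] at him hre
  have h0 : (v 0 : ℝ) = 0 := by
    rcases mul_eq_zero.mp him with h0 | h0
    · exact h0
    · exact absurd h0 hz.ne'
  rw [h0, zero_mul, zero_add] at hre
  have h0' : v 0 = 0 := by exact_mod_cast h0
  have h1' : v 1 = 0 := by exact_mod_cast hre
  funext i
  fin_cases i
  · exact h0'
  · exact h1'

theorem ds_latPt_injective {z : ℂ} (hz : 0 < z.im) {v w : Fin 2 → ℤ}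
    (h : latPt z v = latPt z w) : v = w := by
  have h1 : latPt z (v + -w) = 0 := by rw [ds_latPt_add, ds_latPt_neg, h, add_neg_cancel]
  have h2 := ds_latPt_eq_zero hz h1
  have h3 : v = v + -w + w := by abel
  rw [h3, h2, zero_add]

theorem ds_coe_mul_inv (γ : SL(2, ℤ)) :
    (γ : Matrix (Fin 2) (Fin 2) ℤ) * ((γ⁻¹ : SL(2, ℤ)) : Matrix (Fin 2) (Fin 2) ℤ) = 1 := by
  have h := Matrix.SpecialLinearGroup.coe_mul γ γ⁻¹
  rw [mul_inv_cancel, Matrix.SpecialLinearGroup.coe_one] at h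
  exact h.symm

theorem ds_coe_inv_mul (γ : SL(2, ℤ)) :
    ((γ⁻¹ : SL(2, ℤ)) : Matrix (Fin 2) (Fin 2) ℤ) * (γ : Matrix (Fin 2) (Fin 2) ℤ) = 1 := by
  have h := Matrix.SpecialLinearGroup.coe_mul γ⁻¹ γ
  rw [inv_mul_cancel, Matrix.SpecialLinearGroup.coe_one] at h
  exact h.symm

/-- The equivalence `v ↦ v γ` of `ℤ²`. -/
def dsVecMulEquiv (γ : SL(2, ℤ)) : (Fin 2 → ℤ) ≃ (Fin 2 → ℤ) where
  toFun v := v ᵥ* (γ : Matrix (Fin 2) (Fin 2) ℤ)
  invFun v := v ᵥ* ((γ⁻¹ : SL(2, ℤ)) : Matrix (Fin 2) (Fin 2) ℤ)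
  left_inv v := by
    show (v ᵥ* (γ : Matrix (Fin 2) (Fin 2) ℤ)) ᵥ* ((γ⁻¹ : SL(2, ℤ)) : Matrix (Fin 2) (Fin 2) ℤ) = v
    rw [vecMul_vecMul, ds_coe_mul_inv, vecMul_one]
  right_inv v := by
    show (v ᵥ* ((γ⁻¹ : SL(2, ℤ)) : Matrix (Fin 2) (Fin 2) ℤ)) ᵥ* (γ : Matrix (Fin 2) (Fin 2) ℤ) = v
    rw [vecMul_vecMul, ds_coe_inv_mul, vecMul_one]

theorem ds_vecMul_eq_zero_iff (γ : SL(2, ℤ)) (v : Fin 2 → ℤ) :
    v ᵥ* (γ : Matrix (Fin 2) (Fin 2) ℤ) = 0 ↔ v = 0 := by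
  constructor
  · intro h
    have h1 : (dsVecMulEquiv γ) v = (dsVecMulEquiv γ) 0 := by
      show v ᵥ* (γ : Matrix (Fin 2) (Fin 2) ℤ) = 0 ᵥ* (γ : Matrix (Fin 2) (Fin 2) ℤ)
      rw [h, zero_vecMul]
    exact (dsVecMulEquiv γ).injective h1
  · rintro rfl
    exact zero_vecMul _

theorem ds_coe_smul (γ : SL(2, ℤ)) (z : ℍ) :
    ((γ • z : ℍ) : ℂ) = (((γ 0 0 : ℤ) : ℂ) * z + ((γ 0 1 : ℤ) : ℂ)) / denom γ z := by
  rw [UpperHalfPlane.coe_specialLinearGroup_apply, ModularGroup.denom_apply]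
  simp

/-- `m (γ z) + n = ((m, n) γ)(z) / j(γ, z)`. -/
theorem ds_latPt_smul_eq (z : ℍ) (γ : SL(2, ℤ)) (v : Fin 2 → ℤ) :
    latPt ((γ • z : ℍ) : ℂ) v
      = latPt (z : ℂ) (v ᵥ* (γ : Matrix (Fin 2) (Fin 2) ℤ)) / denom γ z := by
  have hj : denom γ z ≠ 0 := denom_ne_zero _ z
  rw [ds_coe_smul, eq_div_iff hj]
  simp only [latPt, vecMul, vec2_dotProduct, Int.cast_add, Int.cast_mul]
  have hd : denom γ z = ((γ 1 0 : ℤ) : ℂ) * z + ((γ 1 1 : ℤ) : ℂ) := ModularGroup.denom_apply γ z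
  field_simp
  rw [hd]
  ring

/-! ### Homogeneity -/

theorem ds_zetaTerm_smul (z : ℍ) (γ : SL(2, ℤ)) (u : ℂ) (v : Fin 2 → ℤ) :
    zetaTerm ((γ • z : ℍ) : ℂ) (u / denom γ z) v
      = denom γ z * zetaTerm (z : ℂ) u (v ᵥ* (γ : Matrix (Fin 2) (Fin 2) ℤ)) := by
  have hj : denom γ z ≠ 0 := denom_ne_zero _ z
  unfold zetaTerm
  by_cases hv : v = 0
  · rw [if_pos hv, if_pos ((ds_vecMul_eq_zero_iff γ v).mpr hv)]
    rw [one_div, one_div, inv_div, div_eq_mul_inv]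
  · rw [if_neg hv, if_neg (fun h => hv ((ds_vecMul_eq_zero_iff γ v).mp h)), ds_latPt_smul_eq]
    set w := latPt (z : ℂ) (v ᵥ* (γ : Matrix (Fin 2) (Fin 2) ℤ)) with hw
    set j := denom γ z with hjdef
    have h1 : 1 / (u / j - w / j) = j * (1 / (u - w)) := by
      rw [← sub_div, one_div, inv_div, one_div, div_eq_mul_inv]
    have h2 : 1 / (w / j) = j * (1 / w) := by
      rw [one_div, inv_div, one_div, div_eq_mul_inv]
    have h3 : u / j / (w / j) ^ 2 = j * (u / w ^ 2) := by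
      rw [div_pow, div_div_eq_mul_div, div_mul_eq_mul_div, div_div]
      by_cases hw0 : w = 0
      · simp [hw0]
      · field_simp
    rw [h1, h2, h3]
    ring

/-- **DS-2B1.**  Homogeneity of the Weierstrass zeta function under `SL(2, ℤ)`. -/
theorem zetaHomogeneity : ZetaHomogeneityStatement := by
  intro z γ u
  unfold wzeta
  simp_rw [ds_zetaTerm_smul]
  rw [tsum_mul_left]
  congr 1
  exact (dsVecMulEquiv γ).tsum_eq (fun v => zetaTerm (z : ℂ) u v)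

/-! ### Oddness -/

theorem ds_zetaTerm_neg (z u : ℂ) (v : Fin 2 → ℤ) :
    zetaTerm z (-u) (-v) = -zetaTerm z u v := by
  unfold zetaTerm
  by_cases hv : v = 0
  · rw [if_pos hv, if_pos (by rw [hv, neg_zero])]
    rw [one_div, one_div, inv_neg]
  · rw [if_neg hv, if_neg (fun h => hv (neg_eq_zero.mp h)), ds_latPt_neg]
    set w := latPt z v
    have h1 : 1 / (-u - -w) = -(1 / (u - w)) := by
      rw [show -u - -w = -(u - w) by ring, one_div, one_div, inv_neg]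
    have h2 : 1 / -w = -(1 / w) := by rw [one_div, one_div, inv_neg]
    have h3 : -u / (-w) ^ 2 = -(u / w ^ 2) := by rw [neg_sq, neg_div]
    rw [h1, h2, h3]
    ring

theorem ds_wzeta_neg (z u : ℂ) : wzeta z (-u) = -wzeta z u := by
  unfold wzeta
  rw [← (Equiv.neg (Fin 2 → ℤ)).tsum_eq (fun v => zetaTerm z (-u) v), ← tsum_neg]
  refine tsum_congr fun v => ?_
  exact ds_zetaTerm_neg z u v

/-! ### Half-periods -/

/-- `2 ζ(ω/2) = η(ω)` for a primitive period `ω = m z + n` (not both `m, n` even). -/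
theorem ds_two_wzeta_half (hQ : ZetaQuasiPeriodStatement) {z : ℂ} (hz : 0 < z.im)
    (w : Fin 2 → ℤ) (hw : ¬ ((2 : ℤ) ∣ w 0 ∧ (2 : ℤ) ∣ w 1)) :
    2 * wzeta z (latPt z w / 2) = w 0 * etaZ z + w 1 * eta1 z := by
  have hu : ∀ v : Fin 2 → ℤ, -(latPt z w / 2) ≠ latPt z v := by
    intro v hv
    have h1 : latPt z w = latPt z ((-2 : ℤ) • v) := by
      rw [ds_latPt_smul, ← hv]
      push_cast
      ring
    have h2 := ds_latPt_injective hz h1
    apply hw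
    rw [h2]
    exact ⟨⟨-v 0, by simp⟩, ⟨-v 1, by simp⟩⟩
  have h := hQ z hz (-(latPt z w / 2)) hu w
  have h3 : -(latPt z w / 2) + latPt z w = latPt z w / 2 := by ring
  rw [h3, ds_wzeta_neg] at h
  linear_combination h

theorem ds_row_not_even (γ : SL(2, ℤ)) (i : Fin 2) :
    ¬ ((2 : ℤ) ∣ (γ : Matrix (Fin 2) (Fin 2) ℤ) i 0 ∧ (2 : ℤ) ∣ (γ : Matrix (Fin 2) (Fin 2) ℤ) i 1) := by
  rintro ⟨h0, h1⟩
  have hdet : (γ : Matrix (Fin 2) (Fin 2) ℤ) 0 0 * (γ : Matrix (Fin 2) (Fin 2) ℤ) 1 1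
      - (γ : Matrix (Fin 2) (Fin 2) ℤ) 0 1 * (γ : Matrix (Fin 2) (Fin 2) ℤ) 1 0 = 1 := by
    have := γ.det_coe
    rw [Matrix.det_fin_two] at this
    exact this
  have h2 : (2 : ℤ) ∣ 1 := by
    rw [← hdet]
    fin_cases i
    · exact dvd_sub (Dvd.dvd.mul_right h0 _) (Dvd.dvd.mul_right h1 _)
    · exact dvd_sub (Dvd.dvd.mul_left h1 _) (Dvd.dvd.mul_left h0 _)
  norm_num at h2

/-- `η(γ z; 1) = j (c η(z) + d η(1))`. -/
theorem ds_eta1_smul (hQ : ZetaQuasiPeriodStatement) (z : ℍ) (γ : SL(2, ℤ)) :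
    eta1 ((γ • z : ℍ) : ℂ)
      = denom γ z * (((γ 1 0 : ℤ) : ℂ) * etaZ (z : ℂ) + ((γ 1 1 : ℤ) : ℂ) * eta1 (z : ℂ)) := by
  have hj : denom γ z ≠ 0 := denom_ne_zero _ z
  have hd : denom γ z = latPt (z : ℂ) ((γ : Matrix (Fin 2) (Fin 2) ℤ) 1) :=
    ModularGroup.denom_apply γ z
  have h1 : (1 / 2 : ℂ) = (latPt (z : ℂ) ((γ : Matrix (Fin 2) (Fin 2) ℤ) 1) / 2) / denom γ z := by
    rw [← hd]
    field_simp
  have e1 : eta1 ((γ • z : ℍ) : ℂ) = 2 * wzeta ((γ • z : ℍ) : ℂ)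
      ((latPt (z : ℂ) ((γ : Matrix (Fin 2) (Fin 2) ℤ) 1) / 2) / denom γ z) := by
    unfold eta1
    rw [← h1]
  rw [e1, zetaHomogeneity z γ]
  have h2 := ds_two_wzeta_half hQ z.im_pos _ (ds_row_not_even γ 1)
  linear_combination (denom γ z) * h2

/-- `η(γ z; γ z) = j (a η(z) + b η(1))`. -/
theorem ds_etaZ_smul (hQ : ZetaQuasiPeriodStatement) (z : ℍ) (γ : SL(2, ℤ)) :
    etaZ ((γ • z : ℍ) : ℂ)
      = denom γ z * (((γ 0 0 : ℤ) : ℂ) * etaZ (z : ℂ) + ((γ 0 1 : ℤ) : ℂ) * eta1 (z : ℂ)) := by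
  have hj : denom γ z ≠ 0 := denom_ne_zero _ z
  have h1 : ((γ • z : ℍ) : ℂ) / 2
      = (latPt (z : ℂ) ((γ : Matrix (Fin 2) (Fin 2) ℤ) 0) / 2) / denom γ z := by
    rw [ds_coe_smul]
    simp only [latPt]
    field_simp
  have e1 : etaZ ((γ • z : ℍ) : ℂ) = 2 * wzeta ((γ • z : ℍ) : ℂ)
      ((latPt (z : ℂ) ((γ : Matrix (Fin 2) (Fin 2) ℤ) 0) / 2) / denom γ z) := by
    unfold etaZ
    rw [← h1]
  rw [e1, zetaHomogeneity z γ]
  have h2 := ds_two_wzeta_half hQ z.im_pos _ (ds_row_not_even γ 0)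
  linear_combination (denom γ z) * h2

/-! ### The transformation law -/

/-- **DS-2B2.**  Transformation law of `eisOne` and dependence on `a` modulo `ℓ` only. -/
theorem eisOneTransform (hQ : ZetaQuasiPeriodStatement) : EisOneTransformStatement := by
  intro ℓ hℓ a ha
  have hℓ0 : (ℓ : ℂ) ≠ 0 := by
    have : ℓ ≠ 0 := by omega
    exact_mod_cast this
  refine ⟨?_, ?_⟩
  · intro z γ
    have hj : denom γ z ≠ 0 := denom_ne_zero _ z
    unfold eisOne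
    have h1 : latPt ((γ • z : ℍ) : ℂ) a / ℓ
        = (latPt (z : ℂ) (a ᵥ* (γ : Matrix (Fin 2) (Fin 2) ℤ)) / ℓ) / denom γ z := by
      rw [ds_latPt_smul_eq]
      field_simp
    rw [h1, zetaHomogeneity z γ, ds_eta1_smul hQ, ds_etaZ_smul hQ]
    simp only [vecMul, vec2_dotProduct, Int.cast_add, Int.cast_mul]
    field_simp
    ring
  · intro z b
    unfold eisOne
    have hu : ∀ v : Fin 2 → ℤ, latPt (z : ℂ) a / ℓ ≠ latPt (z : ℂ) v := by
      intro v hv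
      have h1 : latPt (z : ℂ) a = latPt (z : ℂ) ((ℓ : ℤ) • v) := by
        rw [ds_latPt_smul, ← hv]
        push_cast
        field_simp
      have h2 := ds_latPt_injective z.im_pos h1
      apply ha
      rw [h2]
      exact ⟨⟨v 0, by simp⟩, ⟨v 1, by simp⟩⟩
    have h := hQ (z : ℂ) z.im_pos (latPt (z : ℂ) a / ℓ) hu b
    have h3 : latPt (z : ℂ) (a + (ℓ : ℤ) • b) / ℓ = latPt (z : ℂ) a / ℓ + latPt (z : ℂ) b := by
      rw [ds_latPt_add, ds_latPt_smul]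
      push_cast
      field_simp
    rw [h3, h]
    simp only [Pi.add_apply, Pi.smul_apply, smul_eq_mul, Int.cast_add, Int.cast_mul,
      Int.cast_natCast]
    field_simp
    ring

end Fermat.Agent.H65

end
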